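/-
T4E (S36 for every exponent `e ≥ 2`; Glue/G owner helper3), part 2: **the Tate-module form of the
interface `T4eNewAtC`** (copy of helper4's `Lib/T4/G/Core.lean` at the level `N'' q^k q q`, with a
general multiplier `c`).

* `t4e_X_new`: (NEW_e) on the character groups `X_m`;
* `t4e_TT_new`: (NEW_e) on the Tate module: `c ∈ TT^{I_q}`, `U_q c = 0`, `U_q w c = 0` ⟹ `c = 0`.
-/
import Mathlib
import Fermat.Agent.Lib.T4.G.NewU
import Fermat.Agent.Lib.T4E.Defs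
import Fermat.Agent.Lib.T2.F.TinfOps

set_option autoImplicit false
set_option linter.unusedSectionVars false
set_option linter.unusedVariables false
set_option linter.style.haveILetI false

open scoped TensorProduct
open Matrix MatrixGroups CongruenceSubgroup Fermat.Agent.T1 Fermat.Agent.T2 ModularCurve
  Fermat.Agent.S24Lib ModularCurve.Period

namespace Fermat.Agent.T4

local notation "Kbar" => AlgebraicClosure ℚ
local notation "GQ" => (AlgebraicClosure ℚ ≃ₐ[ℚ] AlgebraicClosure ℚ)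

section X

variable (wU : T4eWType) (hw : T4eWCompat wU)
  (N'' q k : ℕ) [NeZero N''] [hq : Fact q.Prime] (h : ¬ q ∣ N'') [NeZero (N'' * q ^ k * q * q)]
  (c : ℕ) (hnew : T4eNewAtC wU N'' q k h c)
  {DK : TdmDict Kbar (N'' * q ^ k * q * q)} {DC : TdmDictC (N'' * q ^ k * q * q)}
  (E : TdmDescent (N'' * q ^ k * q * q) DK DC)
  (hDK : DK.toMer = KMod.toMer Kbar (N'' * q ^ k * q * q))

include hw hnew hDK in
/-- **(NEW_e) on the character groups** -/
theorem t4e_X_new (A : ValuationSubring Kbar) (hA : A.LiesOverPrime q) {m : ℕ}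
    (hmq : Nat.Coprime m q) (hm : m ≠ 0) (χ : tdmX (N'' * q ^ k * q * q) m)
    (hI : ∀ σ ∈ A.inertiaSubgroupIn ℚ, E.galX hm σ χ = χ)
    (hU : (tdmSysU (N'' * q ^ k * q * q) q (t4e_q_dvd N'' q k) hq.out.ne_zero).homX m χ = 1)
    (hUW : (tdmSysU (N'' * q ^ k * q * q) q (t4e_q_dvd N'' q k) hq.out.ne_zero).homX m
      ((t4eSysW N'' q k h).homX m χ) = 1) :
    χ ^ c = 1 := by
  obtain ⟨hwfn, hwsig⟩ := hw N'' q k h
  obtain ⟨y, rfl⟩ := E.psi_surjective hm χ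
  -- inertia
  have h1 : ∀ σ ∈ A.inertiaSubgroupIn ℚ,
      ∃ t : (↥(modularFunctionFieldBar (N'' * q ^ k * q * q)))ˣ,
        tkrSig (N'' * q ^ k * q * q) σ y.1 = y.1 * t ^ m := by
    intro σ hσ
    have e : DK.psi hm ((tdmSigW (N'' * q ^ k * q * q) m σ y) * y⁻¹) = 1 := by
      rw [map_mul, map_inv, ← E.galX_psi, hI σ hσ]
      exact mul_inv_cancel _
    obtain ⟨t, ht⟩ := mem_tdmPowSub.mp (E.psi_ker hm _ e)
    refine ⟨t, ?_⟩
    rw [ht]
    show tkrSig (N'' * q ^ k * q * q) σ y.1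
      = y.1 * (tkrSig (N'' * q ^ k * q * q) σ y.1 * (y.1)⁻¹)
    rw [mul_comm (tkrSig (N'' * q ^ k * q * q) σ y.1), ← mul_assoc, mul_inv_cancel, one_mul]
  -- `U_q`
  obtain ⟨hUy, hUpsi⟩ := DK.psi_op
    (tdmSysU (N'' * q ^ k * q * q) q (t4e_q_dvd N'' q k) hq.out.ne_zero) hm
    (tkrHeckeUUnits (N'' * q ^ k * q * q) q)
    (DK.fn_heckeU hDK q hq.out (t4e_q_dvd N'' q k)) y
  have h2 : ∃ t : (↥(modularFunctionFieldBar (N'' * q ^ k * q * q)))ˣ,
      tkrHeckeUUnits (N'' * q ^ k * q * q) q y.1 = t ^ m := by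
    have e : DK.psi hm ⟨tkrHeckeUUnits (N'' * q ^ k * q * q) q y.1, hUy⟩ = 1 := by
      rw [hUpsi, hU]
    obtain ⟨t, ht⟩ := mem_tdmPowSub.mp (E.psi_ker hm _ e)
    exact ⟨t, ht.symm⟩
  -- `U_q ∘ w`
  obtain ⟨hWy, hWpsi⟩ := DK.psi_op (t4eSysW N'' q k h) hm (wU N'' q k h) (hwfn DK hDK) y
  obtain ⟨hUWy, hUWpsi⟩ := DK.psi_op
    (tdmSysU (N'' * q ^ k * q * q) q (t4e_q_dvd N'' q k) hq.out.ne_zero) hm
    (tkrHeckeUUnits (N'' * q ^ k * q * q) q)
    (DK.fn_heckeU hDK q hq.out (t4e_q_dvd N'' q k))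
    ⟨wU N'' q k h y.1, hWy⟩
  have h3 : ∃ t : (↥(modularFunctionFieldBar (N'' * q ^ k * q * q)))ˣ,
      tkrHeckeUUnits (N'' * q ^ k * q * q) q (wU N'' q k h y.1) = t ^ m := by
    have e : DK.psi hm
        ⟨tkrHeckeUUnits (N'' * q ^ k * q * q) q (wU N'' q k h y.1), hUWy⟩ = 1 := by
      rw [hUWpsi, hWpsi, hUW]
    obtain ⟨t, ht⟩ := mem_tdmPowSub.mp (E.psi_ker hm _ e)
    exact ⟨t, ht.symm⟩
  obtain ⟨t, ht⟩ := hnew A hA m hmq hm y.1 y.2 h1 h2 h3
  rw [← map_pow]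
  exact DK.psi_pow hm (y ^ c) t ht

end X

section TT

variable (wU : T4eWType) (hw : T4eWCompat wU)
  (p : ℕ) [hp : Fact p.Prime] (N'' q k : ℕ) [NeZero N''] [hq : Fact q.Prime] (h : ¬ q ∣ N'')
  [NeZero (N'' * q ^ k * q * q)]
  (c : ℕ) (hc : c ≠ 0) (hnew : T4eNewAtC wU N'' q k h c)
  {DK : TdmDict Kbar (N'' * q ^ k * q * q)} {DC : TdmDictC (N'' * q ^ k * q * q)}
  (E : TdmDescent (N'' * q ^ k * q * q) DK DC)
  (hDK : DK.toMer = KMod.toMer Kbar (N'' * q ^ k * q * q))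

include hw hnew hDK hc in
/-- **(NEW_e) on the Tate module**: an inertia-invariant element which is killed by `U_q` and by
`U_q ∘ w_{q^e}` is zero -/
theorem t4e_TT_new (hqp : q ≠ p) (A : ValuationSubring Kbar) (hA : A.LiesOverPrime q)
    (x : ↥(parabolicHoms ℤ_[p] (Gamma0 (N'' * q ^ k * q * q)) ℤ_[p]))
    (hI : ∀ σ ∈ A.inertiaSubgroupIn ℚ, t2fGal p E σ x = x)
    (hU : tdmHeckeP p (N'' * q ^ k * q * q) (CuspForm.heckeAlgebra.U hq.out (t4e_q_dvd N'' q k)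
      (Set.notMem_empty q)) x = 0)
    (hUW : tdmHeckeP p (N'' * q ^ k * q * q) (CuspForm.heckeAlgebra.U hq.out (t4e_q_dvd N'' q k)
      (Set.notMem_empty q)) (t4eW p N'' q k h x) = 0) :
    x = 0 := by
  set D := tdmTowerN p (N'' * q ^ k * q * q) with hD
  set US := tdmSysU (N'' * q ^ k * q * q) q (t4e_q_dvd N'' q k) hq.out.ne_zero with hUS
  have hιU : ∀ (j : ℕ) (z : ↥(parabolicHoms ℤ_[p] (Gamma0 (N'' * q ^ k * q * q)) ℤ_[p])),
      Additive.toMul (D.ι j (tdmHeckeP p (N'' * q ^ k * q * q)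
        (CuspForm.heckeAlgebra.U hq.out (t4e_q_dvd N'' q k) (Set.notMem_empty q)) z))
        = US.homX (p ^ j) (Additive.toMul (D.ι j z)) := by
    intro j z
    rw [tdm_ι_hom p US j z _ (tdmHeckeP_U p (N'' * q ^ k * q * q) q hq.out (t4e_q_dvd N'' q k) z)]
    rfl
  have key : ∀ j : ℕ, D.ι j (c • x) = 0 := by
    intro j
    have hm := tdm_prime_pow_ne_zero p j
    have hcop : Nat.Coprime (p ^ j) q :=
      Nat.Coprime.pow_left j ((Nat.coprime_primes hp.out hq.out).mpr hqp.symm)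
    set χ : ↥(tdmX (N'' * q ^ k * q * q) (p ^ j)) := Additive.toMul (D.ι j x) with hχ
    have h1 : ∀ σ ∈ A.inertiaSubgroupIn ℚ, E.galX hm σ χ = χ := by
      intro σ hσ
      rw [hχ, ← t2fGal_ι_toMul, hI σ hσ]
    have h2 : US.homX (p ^ j) χ = 1 := by
      rw [hχ, ← hιU, hU, map_zero]
      rfl
    have h3 : US.homX (p ^ j) ((t4eSysW N'' q k h).homX (p ^ j) χ) = 1 := by
      have e : (t4eSysW N'' q k h).homX (p ^ j) χ
          = Additive.toMul (D.ι j (t4eW p N'' q k h x)) := by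
        rw [t4eW_ι]
        rfl
      rw [e, ← hιU, hUW, map_zero]
      rfl
    have h4 := t4e_X_new wU hw N'' q k h c hnew E hDK A hA hcop hm χ h1 h2 h3
    rw [map_nsmul]
    apply Additive.toMul.injective
    rw [toMul_nsmul, ← hχ, h4]
    rfl
  have h0 : c • x = 0 := D.eq_zero key
  rw [← Nat.cast_smul_eq_nsmul ℤ_[p]] at h0
  rcases smul_eq_zero.mp h0 with h5 | h5
  · exact absurd h5 (Nat.cast_ne_zero.mpr hc)
  · exact h5

end TT

end Fermat.Agent.T4
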