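/-
T4E (S36 for every exponent `e ≥ 2`; Glue/G owner helper3), part 5: **the function-level `w_{q^e}`**
(lead's `t4wU` of T4-V2, which is stated for a general coprime factor `Q`) **in the interface form**
`t4eWU : T4eWType`, `t4eWU_compat : T4eWCompat t4eWU`, and
`t4e_package_of_new : T4New t4gWU → T4eNew t4eWU → T4ePackage p N`.
-/
import Mathlib
import Fermat.Agent.Lib.T4.G.WU
import Fermat.Agent.Lib.T4E.G.Pkg

set_option autoImplicit false
set_option linter.unusedSectionVars false
set_option linter.unusedVariables false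
set_option linter.style.haveILetI false

open scoped TensorProduct
open Matrix MatrixGroups CongruenceSubgroup Fermat.Agent.T1 Fermat.Agent.T2 ModularCurve
  Fermat.Agent.S24Lib ModularCurve.Period

namespace Fermat.Agent.T4

local notation "Kbar" => AlgebraicClosure ℚ
local notation "GQ" => (AlgebraicClosure ℚ ≃ₐ[ℚ] AlgebraicClosure ℚ)

/-- lead's `w_{q^e}` on units, in the interface form -/
noncomputable def t4eWU : T4eWType := fun N'' q k _ _ h _ =>
  t4wU (N'' * q ^ k * q * q) N'' (q ^ k * q * q) (t4e_lvl N'' q k) (t4e_coprime N'' q k h)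

/-- the compatibilities of `w_{q^e}` -/
theorem t4eWU_compat : T4eWCompat t4eWU := by
  intro N'' q k _ _ h _
  refine ⟨fun DK hDK y => ?_, fun σ y => ?_⟩
  · rw [tdmCosetSys.prodFn_apply, Finset.univ_unique, Finset.prod_singleton]
    exact t4w_fn (N'' * q ^ k * q * q) N'' (q ^ k * q * q) (t4e_lvl N'' q k)
      (t4e_coprime N'' q k h) DK hDK (y : ↥(modularFunctionFieldBar (N'' * q ^ k * q * q)))
  · exact t4wU_sig (N'' * q ^ k * q * q) N'' (q ^ k * q * q) (t4e_lvl N'' q k)
      (t4e_coprime N'' q k h) σ y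

/-- **the Tate module package with (N9) and (N9_e) from (NEW) and (NEW_e)** for lead's `w_Q` -/
theorem t4e_package_of_new (hnew₂ : T4New t4gWU) (hnew : T4eNew t4eWU) (p : ℕ) [Fact p.Prime]
    (N : ℕ) [NeZero N] : T4ePackage p N :=
  t4e_package_all p N t4gWU t4gWU_compat hnew₂ t4eWU t4eWU_compat hnew

end Fermat.Agent.T4
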